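import Fermat.Agent.RTLift.Finish.Image.Main
import Fermat.Agent.Descent3.FixedValue
import Fermat.Agent.LocalP.NotAllInE1
import Fermat.Agent.LocalP.Conditions.Ordinary

/-!
# Inertia at `p` on `E[p]`: no small power of a generator of the image is scalar

If some `p`-torsion does not reduce to the origin, a scalar element of inertia is trivial. Otherwise
inertia is transitive on the abscissae of the non-zero `p`-torsion: the product of each orbit of
roots of `preΨ' p` has the value of a power of `p`, and the leading coefficient is only `p`.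
-/

set_option autoImplicit false

open scoped WeierstrassCurve.Affine

noncomputable section

namespace FermatAgent.Wiring.General

open WeierstrassCurve WeierstrassCurve.Affine Polynomial
open FermatAgent.Local FermatAgent.LocalP FermatAgent.RTLift.Finish.Image

local notation "Qb" => AlgebraicClosure ℚ
local notation "GQ" => AlgebraicClosure ℚ ≃ₐ[ℚ] AlgebraicClosure ℚ

/-- All `p`-torsion in `E₁`: inertia is transitive on the abscissae of the non-zero `p`-torsion. -/
theorem exists_inertia_xCoord_eq (W : WeierstrassCurve ℤ) (hΔ : (qbarCurve W).Δ ≠ 0) {p : ℕ}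
    (hp : p.Prime) (hp2 : p ≠ 2) {A : ValuationSubring Qb} (hA : A.LiesOverPrime p)
    (hall : ∀ P : (qbarCurve W).Point, p • P = 0 → InE1 A (qbarCurve W) P)
    {P Q : (qbarCurve W).Point} (hP : p • P = 0) (hP0 : P ≠ 0) (hQ : p • Q = 0) (hQ0 : Q ≠ 0) :
    ∃ σ ∈ A.inertiaSubgroupIn ℚ, xCoord (σ • P) = xCoord Q := by
  classical
  have hpQ : (p : Qb) ≠ 0 := Nat.cast_ne_zero.mpr hp.ne_zero
  have hodd : Odd p := hp.odd_of_ne_two hp2
  set f := (qbarCurve W).preΨ' p with hf
  have hlead : f.leadingCoeff = (p : Qb) := by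
    rw [hf, leadingCoeff_preΨ' _ hpQ, if_neg (Nat.not_even_iff_odd.mpr hodd)]
  have hf0 : f ≠ 0 := preΨ'_ne_zero _ hpQ
  have hΨ : ∀ x : Qb, ((qbarCurve W).ΨSq (p : ℤ)).eval x = 0 ↔ f.eval x = 0 := fun x => by
    rw [ΨSq_ofNat, if_neg (Nat.not_even_iff_odd.mpr hodd), mul_one, eval_pow,
      pow_eq_zero_iff two_ne_zero, hf]
  have hroots : ∀ r ∈ f.roots, 1 < A.valuation r := by
    intro r hr
    rw [mem_roots hf0, IsRoot] at hr
    obtain ⟨y, hy⟩ := exists_point_over (qbarCurve W) hΔ r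
    exact one_lt_val_of_not_mem
      (hall _ ((Local.nsmul_eq_zero_iff (W := qbarCurve W) hy p).mpr ((hΨ r).mpr hr)))
  have hmem : ∀ T : (qbarCurve W).Point, p • T = 0 → T ≠ 0 → xCoord T ∈ f.roots := by
    intro T hT hT0
    obtain ⟨y, hy, he⟩ := exists_eq_some hT0
    rw [mem_roots hf0, IsRoot, ← hΨ]
    exact (Local.nsmul_eq_zero_iff (W := qbarCurve W) hy p).mp (he ▸ hT)
  have hconj : ∀ σ : GQ, xCoord (σ • P) ∈ f.roots := fun σ =>
    hmem _ (by rw [smul_comm, hP]; exact smul_zero (A := (qbarCurve W).Point) σ) ((smul_ne_zero_iff_ne σ).2 hP0)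
  let X : Finset Qb := f.roots.toFinset.filter
    fun x => ∃ σ ∈ A.inertiaSubgroupIn ℚ, xCoord (σ • P) = x
  have hXmem : ∀ σ ∈ A.inertiaSubgroupIn ℚ, xCoord (σ • P) ∈ X := fun σ hσ =>
    Finset.mem_filter.2 ⟨Multiset.mem_toFinset.2 (hconj σ), σ, hσ, rfl⟩
  by_cases hQX : xCoord Q ∈ X
  · exact (Finset.mem_filter.1 hQX).2
  exfalso
  have hXsub : X.val ≤ f.roots := by
    rw [Multiset.le_iff_subset X.nodup]
    exact fun x hx => Multiset.mem_toFinset.1 (Finset.mem_filter.1 hx).1
  obtain ⟨R, hR⟩ := Multiset.le_iff_exists_add.mp hXsub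
  have hQR : xCoord Q ∈ R := by
    have := hmem Q hQ hQ0
    rw [hR, Multiset.mem_add] at this
    exact this.resolve_left hQX
  have hXne : xCoord P ∈ X := by simpa using hXmem 1 (one_mem _)
  have hfix : ∀ τ ∈ A.inertiaSubgroupIn ℚ, τ (X.prod id) = X.prod id := by
    intro τ hτ
    have himg : X.image τ = X := by
      refine Finset.eq_of_subset_of_card_le (fun x hx => ?_)
        (by rw [Finset.card_image_of_injective _ τ.injective])
      obtain ⟨x', hx', rfl⟩ := Finset.mem_image.mp hx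
      obtain ⟨σ, hσ, rfl⟩ := (Finset.mem_filter.1 hx').2
      rw [← xCoord_smul W τ, smul_smul]
      exact hXmem _ (mul_mem hτ hσ)
    conv_rhs => rw [← himg, Finset.prod_image τ.injective.injOn]
    exact map_prod τ _ _
  have hXv : 1 < A.valuation (X.prod id) := by
    rw [map_prod, ← Finset.mul_prod_erase X _ hXne]
    exact lt_of_lt_of_le (hroots _ (Multiset.subset_of_le hXsub hXne))
      (le_mul_of_one_le_right' (Finset.one_le_prod'
        fun x hx => (hroots x (Multiset.subset_of_le hXsub (Finset.mem_of_mem_erase hx))).le))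
  have hRv : 1 < A.valuation R.prod := by
    obtain ⟨R', hR'⟩ := Multiset.exists_cons_of_mem hQR
    rw [hR', Multiset.prod_cons, map_mul]
    refine lt_of_lt_of_le (hroots _ (by rw [hR]; exact Multiset.mem_add.mpr (Or.inr hQR))) ?_
    refine le_mul_of_one_le_right' ?_
    rw [map_multiset_prod]
    refine Multiset.one_le_prod fun v hv => ?_
    obtain ⟨x, hx, rfl⟩ := Multiset.mem_map.mp hv
    exact (hroots x (by rw [hR, hR']; simp [hx])).le
  have hkey : 1 ≤ A.valuation (p : Qb) * A.valuation (X.prod id) := by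
    have hp1 : A.valuation (p : Qb) ≤ 1 := val_le_one_of_mem (natCast_mem A p)
    have hp0 : 0 < A.valuation (p : Qb) := A.valuation.pos_iff.2 hpQ
    obtain ⟨k, hk⟩ := Descent3.exists_val_eq_zpow_of_fixed hp hA
      (z := X.prod id) (fun h => by rw [h, map_zero] at hXv; exact not_lt_zero hXv) hfix
    rcases k with n | n
    · rw [Int.ofNat_eq_natCast, zpow_natCast] at hk
      exact absurd hXv (not_lt.2 (hk.trans_le (pow_le_one₀ zero_le hp1)))
    · rw [hk, zpow_negSucc, pow_succ', _root_.mul_inv_rev, mul_comm (A.valuation (p : Qb)),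
        mul_assoc, inv_mul_cancel₀ hp0.ne', mul_one]
      exact (one_le_inv₀ (pow_pos hp0 n)).2 (pow_le_one₀ zero_le hp1)
  have hc0 : A.valuation (f.coeff 0) =
      A.valuation (p : Qb) * A.valuation (X.prod id) * A.valuation R.prod := by
    rw [(IsAlgClosed.splits f).coeff_zero_eq_leadingCoeff_mul_prod_roots, hlead, hR,
      Multiset.prod_add,
      show X.val.prod = X.prod id by rw [Finset.prod_eq_multiset_prod, Multiset.map_id]]
    simp [map_mul, mul_assoc]
  have hint : A.valuation (f.coeff 0) ≤ 1 := by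
    have : f = (W.preΨ' p).map (Int.castRingHom Qb) := by
      rw [hf, qbarCurve_eq, map_preΨ']
    rw [this, coeff_map]
    exact val_le_one_of_mem (intCast_mem A _)
  rw [hc0] at hint
  exact absurd hint (not_le.mpr (lt_of_lt_of_le hRv (le_mul_of_one_le_left' hkey)))

variable (E : WeierstrassCurve ℤ) {p : ℕ} [hp : Fact p.Prime]
  (hΔ : (E.map (Int.castRingHom ℚ)).Δ ≠ 0)

/-- A scalar power `τ ^ j` of a generator `τ` of the inertia image: `ω(τ) ^ j = 1` or `p ≤ j`. -/
theorem omegaBar_pow_eq_one_or_le (hp2 : p ≠ 2) (hirr : E.ModRepIsIrreducible p)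
    (hss : (p : ℤ) ∣ E.Δ → ¬ (p : ℤ) ∣ E.c₄) {A : ValuationSubring Qb} (hA : A.LiesOverPrime p)
    {τ : GQ} (hτ : τ ∈ A.inertiaSubgroupIn ℚ)
    (hgen : ∀ σ ∈ A.inertiaSubgroupIn ℚ,
      galMat E (p := p) hΔ σ ∈ Subgroup.zpowers (galMat E (p := p) hΔ τ))
    {j : ℕ} (hj : 0 < j) {c : ZMod p}
    (hc : ((galMat E (p := p) hΔ τ : GL (Fin 2) (ZMod p)) : Matrix (Fin 2) (Fin 2) (ZMod p)) ^ j =
      c • 1) :
    omegaBar p τ ^ j = 1 ∨ p ≤ j := by
  classical
  set ρ := Conductor.torsionRep E (p := p) hΔ with hρdef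
  set b := basisTor E (p := p) hΔ
  have hρ : ρ.ρ τ ^ j = c • 1 := (LinearMap.toMatrixAlgEquiv b).injective (by
    rw [map_pow, map_smul, map_one, ← val_galMat, hc])
  have hkill : ∀ T : Submodule.torsionBy ℤ (qbarCurve E).Point p, p • T.1 = 0 := fun T => by
    have := (Submodule.mem_torsionBy_iff _ _).mp T.2
    rwa [natCast_zsmul] at this
  by_cases hall : ∀ T : Submodule.torsionBy ℤ (qbarCurve E).Point p,
      InE1 A (qbarCurve E) T.1
  · right
    have hall' : ∀ P : (qbarCurve E).Point, p • P = 0 → InE1 A (qbarCurve E) P := fun P hP =>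
      hall ⟨P, by rw [Submodule.mem_torsionBy_iff, natCast_zsmul, hP]⟩
    have hT₀ : b 0 ≠ 0 := b.ne_zero 0
    set T₀ : Submodule.torsionBy ℤ (qbarCurve E).Point p := b 0 with hT₀def
    have hsurj : Function.Surjective
        fun q : ZMod p × Fin j => q.1 • (ρ.ρ τ ^ (q.2 : ℕ)) (b 0) := by
      intro Q
      rcases eq_or_ne Q 0 with rfl | hQ
      · exact ⟨(0, ⟨0, hj⟩), zero_smul _ _⟩
      obtain ⟨σ, hσ, hx⟩ := exists_inertia_xCoord_eq E (qbarCurve_Δ_ne_zero hΔ) hp.out hp2 hA hall'
        (hkill T₀) (fun h => hT₀ (Subtype.ext h)) (hkill Q) (fun h => hQ (Subtype.ext h))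
      obtain ⟨k, hk⟩ := Submonoid.mem_powers_iff _ _ |>.1
        (mem_powers_iff_mem_zpowers.2 (hgen σ hσ))
      have hρσ : ρ.ρ σ = c ^ (k / j) • ρ.ρ τ ^ (k % j) := (LinearMap.toMatrixAlgEquiv b).injective
        (by
          rw [map_smul, map_pow, ← val_galMat, ← val_galMat, ← hk, Units.val_pow_eq_pow_val]
          conv_lhs => rw [← Nat.div_add_mod k j, pow_add, pow_mul, hc, _root_.smul_pow, one_pow,
            smul_mul_assoc, one_mul])
      by_cases h : Q = ρ.ρ σ (b 0)
      · refine ⟨(c ^ (k / j), ⟨k % j, Nat.mod_lt _ hj⟩), ?_⟩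
        rw [h, hρσ]; rfl
      · refine ⟨(-c ^ (k / j), ⟨k % j, Nat.mod_lt _ hj⟩), ?_⟩
        have hσ0 : σ • T₀.1 ≠ 0 := (smul_ne_zero_iff_ne σ).2 fun h' => hT₀ (Subtype.ext h')
        have hQn : Q = -ρ.ρ σ (b 0) := by
          by_contra hne
          exact xCoord_ne_of_ne_neg (fun h' => hQ (Subtype.ext h')) hσ0
            (fun e => h (Subtype.ext e)) (fun e => hne (Subtype.ext e)) hx.symm
        rw [hQn, hρσ]
        exact neg_smul _ _
    have : Finite (ZMod p × Fin j) := inferInstance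
    have h1 := Nat.card_le_card_of_surjective _ hsurj
    rw [Module.natCard_eq_pow_finrank (K := ZMod p), ρ.finrank_eq, Nat.card_prod, Nat.card_zmod,
      Nat.card_fin, sq] at h1
    exact Nat.le_of_mul_le_mul_left h1 hp.out.pos
  · left
    obtain ⟨T, hT⟩ := not_forall.1 hall
    have hτj : τ ^ j ∈ A.inertiaSubgroupIn ℚ := pow_mem hτ j
    have hmove : InE1 A (qbarCurve E) (τ ^ j • T.1 - T.1) :=
      smul_sub_inE1_of_semistable (p := p) (n := 1) hΔ hp2 hss hA hτj (by rw [pow_one, hkill])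
    have hc1 : c = 1 := by
      by_contra hne
      refine hT ?_
      have hact : τ ^ j • T = c • T :=
        LinearMap.congr_fun ((map_pow ρ.ρ τ j).trans hρ) T
      have hTS : T = ((c - 1)⁻¹).val • (τ ^ j • T - T) := by
        rw [hact, ← Nat.cast_smul_eq_nsmul (ZMod p), ZMod.natCast_zmod_val]
        conv_rhs => arg 2; arg 2; rw [← one_smul (ZMod p) T]
        rw [← sub_smul, smul_smul, inv_mul_cancel₀ (sub_ne_zero.2 hne), one_smul]
      have hmem : τ ^ j • T.1 - T.1 ∈
          e1Subgroup A (qbarCurve E) (qbarCurve_intCoeffs E A) := hmove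
      rw [hTS]
      exact nsmul_mem hmem _
    rw [← det_galMat E hΔ hirr τ, ← map_pow,
      show galMat E (p := p) hΔ τ ^ j = 1 from Units.ext (by
        rw [Units.val_pow_eq_pow_val, hc, hc1, one_smul, Units.val_one]), map_one]

end FermatAgent.Wiring.General
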