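import Fermat.Agent.Wiring.General.ImageGroup
import Fermat.Agent.Wiring.General.ImageLocal

/-!
# The image of Galois on an irreducible `E[p]` of a semistable curve is `GL₂(𝔽_p)`, `p` odd
-/

set_option autoImplicit false

noncomputable section

namespace FermatAgent.Wiring.General

open FermatAgent.RT FermatAgent.GalRep FermatAgent.RTLift.Finish FermatAgent.RTLift.Finish.Image

local notation "Qb" => AlgebraicClosure ℚ

/-- Full image of an irreducible `E[p]`, semistable `E`, odd `p`. -/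
theorem fullImage_of_irreducible (W : WeierstrassCurve ℤ) (p : ℕ) [hp : Fact p.Prime] (hp2 : p ≠ 2)
    (hss : W.IsSemistableModel) (hirr : W.ModRepIsIrreducible p) : FullImage W p := by
  intro hΔ g hg
  by_cases h35 : p = 3 ∨ p = 5
  · exact imageStep W p ⟨h35, Tate.intΔ_ne_zero W hΔ, hss, hirr⟩ hΔ g hg
  have hp7 : 7 ≤ p := by
    have h4 : p ≠ 4 := fun h => absurd (h ▸ hp.out) (by norm_num)
    have h6 : p ≠ 6 := fun h => absurd (h ▸ hp.out) (by norm_num)
    have := hp.out.two_le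
    omega
  have hH := hypotheses_range W (p := p) hΔ hp2 hirr
  suffices htop : (galMat W (p := p) hΔ).range = ⊤ by
    set b := basisTor W (p := p) hΔ
    have hu : IsUnit (LinearMap.toMatrixAlgEquiv b g) := hg.map (LinearMap.toMatrixAlgEquiv b)
    obtain ⟨σ, hσ⟩ : hu.unit ∈ (galMat W (p := p) hΔ).range := htop ▸ Subgroup.mem_top _
    refine ⟨σ, (LinearMap.toMatrixAlgEquiv b).injective ?_⟩
    rw [← val_galMat, hσ, IsUnit.unit_spec]
  set G := (galMat W (p := p) hΔ).range with hG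
  by_cases hdiv : p ∣ Nat.card G
  · obtain ⟨u, hu⟩ := exists_prime_orderOf_dvd_card' p hdiv
    exact eq_top_of_order_p hH (hu ▸ pow_orderOf_eq_one u) fun h => by
      rw [h, orderOf_one] at hu; exact hp.out.ne_one hu.symm
  exfalso
  set r := (galMat W (p := p) hΔ).rangeRestrict
  have hr : Function.Surjective r := MonoidHom.rangeRestrict_surjective _
  have hrf : GaloisFactorsThroughFiniteLevel r := by
    obtain ⟨L, hfin, hL⟩ := galMat_finiteLevel W (p := p) hΔ
    exact ⟨L, hfin, fun σ hσ => Subtype.ext (hL σ hσ)⟩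
  have hdet : ∀ σ, detG G (r σ) = omegaBar p σ := fun σ => det_galMat W hΔ hirr σ
  have hunr : ∀ q : ℕ, q.Prime → q ≠ p → ∀ B : ValuationSubring Qb, B.LiesOverPrime q →
      ∀ σ ∈ B.inertiaSubgroupIn ℚ, r σ = 1 := fun q hq hqp B hB σ hσ => by
    have h1 : r σ ^ p = 1 := Subtype.ext (galMat_pow_inertia W hΔ hss hq hqp hB hσ)
    refine orderOf_eq_one_iff.1 (Nat.eq_one_of_dvd_coprimes
      (hp.out.coprime_iff_not_dvd.2 hdiv) (orderOf_dvd_of_pow_eq_one h1) (orderOf_dvd_natCard _))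
  have hab := mem_commutator_of_det_one r hr hrf hdet hdiv hunr
  obtain ⟨A, hA⟩ := exists_liesOverPrime hp.out
  obtain ⟨⟨τ, hτ, hgen⟩, -⟩ := tame_image r hrf
    (fun σ h => hdiv (h.trans (orderOf_dvd_natCard _))) hA
  have hgenω : ∀ u : (ZMod p)ˣ, u ∈ Subgroup.zpowers (detG G (r τ)) := fun u => by
    obtain ⟨i, hi, rfl⟩ := omegaBar_inertia_surjective p hA u
    obtain ⟨m, hm⟩ := Subgroup.mem_zpowers_iff.1 (hgen i hi)
    exact Subgroup.mem_zpowers_iff.2 ⟨m, by rw [← map_zpow, hm, hdet]⟩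
  refine false_of_large_element hp2 hH hab hdiv (r τ) hgenω fun j hj hj5 c hc => ?_
  have hord : orderOf (omegaBar p τ) = p - 1 := by
    rw [← hdet, orderOf_eq_card_of_forall_mem_zpowers hgenω, Nat.card_eq_fintype_card,
      ZMod.card_units]
  rcases omegaBar_pow_eq_one_or_le W hΔ hp2 hirr (hss p hp.out) hA hτ (fun σ hσ => by
      obtain ⟨m, hm⟩ := Subgroup.mem_zpowers_iff.1 (hgen σ hσ)
      exact Subgroup.mem_zpowers_iff.2 ⟨m, congrArg Subtype.val hm⟩) hj hc with h | h
  · have := Nat.le_of_dvd hj (hord ▸ orderOf_dvd_of_pow_eq_one h)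
    omega
  · omega

end FermatAgent.Wiring.General
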