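import Fermat.Agent.Wiring.Final.Gaps
import Fermat.Agent.RTLift.Sq.Start
import Fermat.Prelude.Def_GaloisRep_Residual

/-!
# Level lowering at `q ≠ p` for a semistable curve (statement S38)

For `q ≡ 1 mod p` with `p` in the level and `E[p]` flat, `p` is removed first, then `q`, and the
system of level `M / (p q)` is read at its multiple `M / q`.
-/

set_option autoImplicit false

open WeierstrassCurve WeierstrassCurve.Affine WeierstrassCurve.Affine.Point

namespace FermatAgent.Wiring.General

open RTLift.Finish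

/-- The residual representation is unramified at `q` exactly when `E[p]` is. -/
theorem unramifiedMod_of_isUnramifiedAt {W : WeierstrassCurve ℤ} {p q : ℕ} [Fact p.Prime]
    {hcard : Nat.card (Submodule.torsionBy ℤ
      ((W.map (Int.castRingHom ℚ))⁄(AlgebraicClosure ℚ)).Point p) = p ^ 2}
    {hker : GaloisFactorsThroughFiniteLevel
      (galoisRepModuleEnd (K := AlgebraicClosure ℚ) ℚ (W.map (Int.castRingHom ℚ)) p)}
    (h : ((W.map (Int.castRingHom ℚ)).residualGaloisRepOf p hcard hker).IsUnramifiedAt q) :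
    UnramifiedMod W p q :=
  fun A hA σ hσ x => LinearMap.congr_fun (h A hA σ hσ) x

/-- Remove a prime `q ≠ p` at which `E[p]` is unramified from a squarefree level, given full image
in the case `q ≡ 1 mod p`. -/
theorem isResiduallyModularOfLevel_div (h : Final.LoweringInputs) {W : WeierstrassCurve ℤ} {p : ℕ}
    [Fact p.Prime] (hp2 : p ≠ 2) (hΔ : W.Δ ≠ 0) (hW : W.IsSemistableModel)
    (hirr : W.ModRepIsIrreducible p) {M q : ℕ} (hI : q % p = 1 → FullImage W p) (hM : Squarefree M)
    (hq : q.Prime) (hqp : q ≠ p) (hqM : q ∣ M) (hu : UnramifiedMod W p q)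
    (hres : W.IsResiduallyModularOfLevel p M) : W.IsResiduallyModularOfLevel p (M / q) := by
  have hp : p.Prime := Fact.out
  by_cases h1 : q % p = 1
  · by_cases hflat : p ∣ M ∧ FlatMod W p
    · obtain ⟨hpM, hfl⟩ := hflat
      have hpq : ¬ p ∣ M / p := fun hd =>
        hp.not_isUnit (hM p ((Nat.dvd_div_iff_mul_dvd hpM).1 hd))
      have hqMp : q ∣ M / p := (Nat.dvd_div_iff_mul_dvd hpM).2
        (Nat.Coprime.mul_dvd_of_dvd_of_dvd ((Nat.coprime_primes hp hq).2 hqp.symm) hpM hqM)
      have hlow := h.qLoweringOne W p hp2 hΔ hW hirr (hI h1) (M / p) q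
        (hM.squarefree_of_dvd (Nat.div_dvd_of_dvd hpM)) (fun hd => absurd hd hpq) hq hqp h1 hqMp hu
        (h.pLowering W p hp2 hΔ hW hirr M hM hpM hfl hres)
      have hdvd : M / p / q ∣ M / q := by
        rw [Nat.div_div_eq_div_mul, mul_comm, ← Nat.div_div_eq_div_mul]
        exact Nat.div_dvd_of_dvd ((Nat.dvd_div_iff_mul_dvd hqM).2
          (Nat.Coprime.mul_dvd_of_dvd_of_dvd ((Nat.coprime_primes hq hp).2 hqp) hqM hpM))
      have : NeZero (M / q) := ⟨(hM.squarefree_of_dvd (Nat.div_dvd_of_dvd hqM)).ne_zero⟩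
      have : NeZero (M / p / q) := ⟨((hM.squarefree_of_dvd (Nat.div_dvd_of_dvd hqM)).squarefree_of_dvd
        hdvd).ne_zero⟩
      exact RTLift.Sq.isResiduallyModularOfLevel_of_dvd hdvd hlow
    · exact h.qLoweringOne W p hp2 hΔ hW hirr (hI h1) M q hM (fun hd hfl => hflat ⟨hd, hfl⟩)
        hq hqp h1 hqM hu hres
  · exact h.qLoweringNe W p hp2 hΔ hW hirr M q hM hq hqp h1 hqM hu hres

end FermatAgent.Wiring.General
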