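import Fermat.Agent.RTLift.Finish.Image.Matrix

/-!
# An odd irreducible group of order prime to `p` with an element of large projective order

If a group of order prime to `p` has the determinant for its only abelian quotient and contains an
element `t` whose determinant generates and whose powers `t ^ j`, `0 < j ≤ 5`, are not scalar, then
it is abelian. Counting fixed points on the projective line over an algebraically closed field
shows that the pair of fixed points of `t` is invariant.
-/

set_option autoImplicit false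

open Matrix OnePoint

noncomputable section

namespace FermatAgent.Wiring.General

section Count

variable {H : Type*} [Group H] [Finite H] {α : Type*} [MulAction H α]

/-- If every nontrivial element fixes exactly two points, a point with stabiliser of order at
least six has at most two conjugates. -/
theorem ncard_orbit_le_two
    (two : ∀ h : H, h ≠ 1 → ∃ a b : α, a ≠ b ∧ ∀ x, h • x = x ↔ x = a ∨ x = b)
    {a : α} (h6 : 6 ≤ Nat.card (MulAction.stabilizer H a)) :
    (MulAction.orbit H a).ncard ≤ 2 := by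
  classical
  have : Fintype H := Fintype.ofFinite H
  have hfix : ∀ h : H, h ≠ 1 → ∃ F : Finset α, F.card = 2 ∧ ∀ x, x ∈ F ↔ h • x = x := by
    intro h hh
    obtain ⟨u, v, huv, hF⟩ := two h hh
    exact ⟨{u, v}, Finset.card_pair huv, fun x => by simp [hF x]⟩
  choose F hFcard hF using hfix
  set X : Finset α := (Finset.univ.erase (1 : H)).attach.biUnion
    fun h => F h.1 (Finset.ne_of_mem_erase h.2) with hXdef
  have hX : ∀ x : α, x ∈ X ↔ ∃ h : H, h ≠ 1 ∧ h • x = x := by
    intro x
    simp only [hXdef, Finset.mem_biUnion, Finset.mem_attach, true_and, Subtype.exists, hF]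
    exact ⟨fun ⟨h, hh, e⟩ => ⟨h, Finset.ne_of_mem_erase hh, e⟩,
      fun ⟨h, hh, e⟩ => ⟨h, Finset.mem_erase.2 ⟨hh, Finset.mem_univ h⟩, e⟩⟩
  set N := Nat.card H with hN
  set e : α → ℕ := fun x => Nat.card (MulAction.stabilizer H x) with hedef
  have hes : ∀ x : α, e x * (MulAction.orbit H x).ncard = N := fun x => by
    rw [← MulAction.index_stabilizer (G := H) x]; exact Subgroup.card_mul_index _
  have hs1 : ∀ x : α, 1 ≤ (MulAction.orbit H x).ncard := fun x =>
    (Set.ncard_pos (Set.finite_range fun h : H => h • x)).2 ⟨x, MulAction.mem_orbit_self x⟩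
  have he2 : ∀ x ∈ X, 2 ≤ e x := fun x hx => by
    obtain ⟨h, hh, hhx⟩ := (hX x).1 hx
    exact Finite.one_lt_card_iff_nontrivial.2
      ⟨⟨⟨h, hhx⟩, 1, fun he => hh (congrArg Subtype.val he)⟩⟩
  have hXst : ∀ x ∈ X, ∀ y ∈ MulAction.orbit H x, y ∈ X := by
    rintro x hx _ ⟨g, rfl⟩
    obtain ⟨h, hh, hhx⟩ := (hX x).1 hx
    refine (hX _).2 ⟨g * h * g⁻¹, fun he => hh ?_, ?_⟩
    · rwa [mul_inv_eq_one, mul_eq_left] at he
    · show (g * h * g⁻¹) • g • x = g • x
      rw [smul_smul, mul_assoc, inv_mul_cancel, mul_one, ← smul_smul, hhx]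
  -- double counting
  have hsum : ∑ x ∈ X, (e x - 1) = 2 * (N - 1) := by
    have h1 := Finset.sum_card_bipartiteAbove_eq_sum_card_bipartiteBelow
      (r := fun (x : α) (h : H) => h • x = x) (s := X) (t := Finset.univ.erase (1 : H))
    have h2 : ∀ x ∈ X, ((Finset.univ.erase (1 : H)).bipartiteAbove
        (fun (x : α) (h : H) => h • x = x) x).card = e x - 1 := fun x _ => by
      rw [Finset.bipartiteAbove, Finset.filter_erase,
        Finset.card_erase_of_mem (by simp), hedef]
      simp only [Nat.card_eq_fintype_card]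
      rw [← Fintype.card_subtype]
      congr 1
    have h3 : ∀ h ∈ Finset.univ.erase (1 : H), (X.bipartiteBelow
        (fun (x : α) (h : H) => h • x = x) h).card = 2 := fun h hh => by
      rw [← hFcard h (Finset.ne_of_mem_erase hh)]
      refine congrArg Finset.card (Finset.ext fun x => ?_)
      simp only [Finset.bipartiteBelow, Finset.mem_filter, hF]
      exact ⟨fun h' => h'.2, fun h' => ⟨(hX x).2 ⟨h, Finset.ne_of_mem_erase hh, h'⟩, h'⟩⟩
    rw [Finset.sum_congr rfl h2, Finset.sum_congr rfl h3, Finset.sum_const,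
      Finset.card_erase_of_mem (Finset.mem_univ _), Finset.card_univ, smul_eq_mul] at h1
    rw [h1, hN, Nat.card_eq_fintype_card, mul_comm]
  set o : α → Set α := fun x => MulAction.orbit H x with hodef
  set Ω := X.image o with hΩ
  have hfib : ∀ ω ∈ Ω, ∑ x ∈ X with o x = ω, (e x - 1) = N - ω.ncard := by
    intro ω hω
    obtain ⟨x₀, hx₀, rfl⟩ := Finset.mem_image.1 hω
    have hset : ((X.filter fun x => o x = o x₀ : Finset α) : Set α) = o x₀ := Set.ext fun y =>
      ⟨fun hy => (Finset.mem_filter.1 hy).2 ▸ MulAction.mem_orbit_self y,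
        fun hy => Finset.mem_filter.2 ⟨hXst x₀ hx₀ y hy, MulAction.orbit_eq_iff.2 hy⟩⟩
    have hval : ∀ x ∈ X.filter (fun x => o x = o x₀), e x - 1 = e x₀ - 1 := fun x hx => by
      have h1 := hes x
      rw [show MulAction.orbit H x = o x₀ from (Finset.mem_filter.1 hx).2, ← hes x₀] at h1
      rw [Nat.eq_of_mul_eq_mul_right (hs1 x₀) h1]
    rw [Finset.sum_congr rfl hval, Finset.sum_const, smul_eq_mul, ← Set.ncard_coe_finset, hset,
      Nat.mul_sub_one, mul_comm, hes x₀]
  rw [← Finset.sum_fiberwise_of_maps_to (g := o) (fun x hx => Finset.mem_image_of_mem o hx),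
    Finset.sum_congr rfl hfib] at hsum
  have hbound : ∀ ω ∈ Ω, 1 ≤ ω.ncard ∧ 2 * ω.ncard ≤ N ∧
      (2 * ω.ncard = N ∨ 3 * ω.ncard ≤ N) := by
    intro ω hω
    obtain ⟨x, hx, rfl⟩ := Finset.mem_image.1 hω
    have h1 := hes x
    refine ⟨hs1 x, h1 ▸ Nat.mul_le_mul_right _ (he2 x hx), ?_⟩
    rcases (he2 x hx).eq_or_lt with h | h
    · exact Or.inl (by rw [← h1, ← h])
    · exact Or.inr (h1 ▸ Nat.mul_le_mul_right _ h)
  have haX : a ∈ X := by
    have : Nontrivial (MulAction.stabilizer H a) :=
      Finite.one_lt_card_iff_nontrivial.1 (by omega)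
    obtain ⟨h, hh⟩ := exists_ne (1 : MulAction.stabilizer H a)
    exact (hX a).2 ⟨h, fun he => hh (Subtype.ext he), h.2⟩
  have hoa : o a ∈ Ω := Finset.mem_image_of_mem o haX
  have ha6 : 6 * (o a).ncard ≤ N := hes a ▸ Nat.mul_le_mul_right _ h6
  have hN6 : 6 ≤ N := le_trans (Nat.le_mul_of_pos_right 6 (hs1 a)) ha6
  show (o a).ncard ≤ 2
  rw [← Finset.add_sum_erase _ _ hoa] at hsum
  have hsmall : (Ω.erase (o a)).card ≤ 2 := by
    by_contra! hc
    have h1 : (Ω.erase (o a)).card • N ≤ ∑ ω ∈ Ω.erase (o a), 2 * (N - ω.ncard) :=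
      Finset.card_nsmul_le_sum _ _ _ fun ω hω => by
        have := (hbound ω (Finset.mem_of_mem_erase hω)).2.1
        omega
    rw [← Finset.mul_sum, smul_eq_mul] at h1
    have h2 : 3 * N ≤ (Ω.erase (o a)).card * N := Nat.mul_le_mul_right _ hc
    have := hs1 a
    change 1 ≤ (o a).ncard at this
    omega
  have hs0 := (hbound _ hoa).1
  rcases (Ω.erase (o a)).card.eq_zero_or_pos with hc | hc
  · rw [Finset.card_eq_zero.1 hc, Finset.sum_empty] at hsum
    omega
  rcases (show (Ω.erase (o a)).card = 1 ∨ (Ω.erase (o a)).card = 2 by omega) with hc | hc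
  · obtain ⟨ω, hω⟩ := Finset.card_eq_one.1 hc
    rw [hω, Finset.sum_singleton] at hsum
    have := hbound ω (Finset.mem_of_mem_erase (hω ▸ Finset.mem_singleton_self ω))
    omega
  · obtain ⟨ω, ω', hne, hω⟩ := Finset.card_eq_two.1 hc
    rw [hω, Finset.sum_pair hne] at hsum
    have h1 := hbound ω (Finset.mem_of_mem_erase (hω ▸ Finset.mem_insert_self ω {ω'}))
    have h2 := hbound ω' (Finset.mem_of_mem_erase
      (hω ▸ Finset.mem_insert_of_mem (Finset.mem_singleton_self ω')))
    omega

end Count

section Line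

variable {K : Type*} [Field K] [DecidableEq K]

local notation "GL2K" => GL (Fin 2) K

theorem smul_some_eq_self_iff (g : GL2K) (x : K) :
    g • (x : OnePoint K) = x ↔ g 1 0 * x ^ 2 + (g 1 1 - g 0 0) * x - g 0 1 = 0 := by
  rw [smul_some_eq_ite]
  by_cases h : g 1 0 * x + g 1 1 = 0
  · rw [if_pos h]
    refine iff_of_false (infty_ne_coe x) fun hq => g.det_ne_zero ?_
    rw [det_fin_two]
    linear_combination (g 0 0) * h + g 1 0 * hq - (g 1 0 * x) * h
  · rw [if_neg h, coe_eq_coe, div_eq_iff h]
    constructor <;> intro hq <;> linear_combination -hq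

/-- Nonzero discriminant: exactly two fixed points. -/
theorem exists_two_fixed [IsAlgClosed K] (h2 : (2 : K) ≠ 0) (g : GL2K)
    (hD : (g 0 0 - g 1 1) ^ 2 + 4 * (g 0 1 * g 1 0) ≠ 0) :
    ∃ a b : OnePoint K, a ≠ b ∧ ∀ y, g • y = y ↔ y = a ∨ y = b := by
  by_cases hc : g 1 0 = 0
  · have hd : g 1 1 - g 0 0 ≠ 0 := fun h => hD (by
      rw [hc]; linear_combination (g 1 1 - g 0 0) * h)
    refine ⟨∞, (g 0 1 / (g 1 1 - g 0 0) : K), infty_ne_coe _, fun y => ?_⟩
    cases y with
    | infty => simp [smul_infty_eq_self_iff, hc]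
    | coe y =>
      rw [smul_some_eq_self_iff, hc, zero_mul, zero_add, sub_eq_zero, coe_eq_coe,
        or_iff_right (coe_ne_infty y), eq_div_iff hd, mul_comm]
  · obtain ⟨s, hs⟩ := IsAlgClosed.exists_eq_mul_self ((g 0 0 - g 1 1) ^ 2 + 4 * (g 0 1 * g 1 0))
    have hs0 : s ≠ 0 := fun h => hD (by rw [hs, h, mul_zero])
    have hc2 : 2 * g 1 0 ≠ 0 := mul_ne_zero h2 hc
    refine ⟨((g 0 0 - g 1 1 + s) / (2 * g 1 0) : K), ((g 0 0 - g 1 1 - s) / (2 * g 1 0) : K),
      fun h => ?_, fun y => ?_⟩
    · rw [coe_eq_coe, div_left_inj' hc2] at h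
      exact mul_ne_zero h2 hs0 (by linear_combination h)
    cases y with
    | infty => simp [smul_infty_eq_self_iff, hc]
    | coe y =>
      rw [smul_some_eq_self_iff, coe_eq_coe, coe_eq_coe, eq_div_iff hc2, eq_div_iff hc2]
      constructor
      · intro hq
        have : (y * (2 * g 1 0) - (g 0 0 - g 1 1 + s)) *
            (y * (2 * g 1 0) - (g 0 0 - g 1 1 - s)) = 0 := by
          linear_combination 4 * g 1 0 * hq + hs
        rcases mul_eq_zero.1 this with h | h
        · exact Or.inl (sub_eq_zero.1 h)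
        · exact Or.inr (sub_eq_zero.1 h)
      · intro h
        refine (mul_eq_zero.1 (show (2 : K) * 2 * g 1 0 *
          (g 1 0 * y ^ 2 + (g 1 1 - g 0 0) * y - g 0 1) = 0 from ?_)).resolve_left
            (mul_ne_zero (mul_ne_zero h2 h2) hc)
        rcases h with h | h
        · linear_combination (y * (2 * g 1 0) - (g 0 0 - g 1 1 - s)) * h - hs
        · linear_combination (y * (2 * g 1 0) - (g 0 0 - g 1 1 + s)) * h - hs

/-- Two elements with two common fixed points commute. -/
theorem mul_comm_of_two_fixed {g h : GL2K} {a b : OnePoint K} (hab : a ≠ b)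
    (hga : g • a = a) (hgb : g • b = b) (hha : h • a = a) (hhb : h • b = b) :
    (g : Matrix (Fin 2) (Fin 2) K) * h = h * g := by
  set M := (g : Matrix (Fin 2) (Fin 2) K) * h - h * g with hM
  have hinf : g • (∞ : OnePoint K) = ∞ → h • (∞ : OnePoint K) = ∞ → ∀ i, M i 0 = 0 := by
    intro hg hh i
    rw [smul_infty_eq_self_iff] at hg hh
    fin_cases i <;> simp [hM, mul_apply, Fin.sum_univ_two, hg, hh, mul_comm]
  have hfin : ∀ x : K, g • (x : OnePoint K) = x → h • (x : OnePoint K) = x →
      ∀ i, M i 0 * x + M i 1 = 0 := by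
    intro x hg hh i
    rw [smul_some_eq_self_iff] at hg hh
    fin_cases i <;>
      simp only [hM, Matrix.sub_apply, mul_apply, Fin.sum_univ_two, Fin.zero_eta, Fin.mk_one]
    · linear_combination (h 0 0 - (h 1 0 * x + h 1 1)) * hg +
        (g 1 0 * x + g 1 1 - g 0 0) * hh
    · linear_combination h 1 0 * hg - g 1 0 * hh
  refine sub_eq_zero.1 (Matrix.ext fun i j => ?_)
  rw [Matrix.zero_apply]
  suffices M i 0 = 0 ∧ M i 1 = 0 by fin_cases j <;> simp only [Fin.zero_eta, Fin.mk_one, ← hM] <;>
    [exact this.1; exact this.2]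
  cases a with
  | infty =>
    cases b with
    | infty => exact absurd rfl hab
    | coe y =>
      have h0 := hinf hga hha i
      exact ⟨h0, by simpa [h0] using hfin y hgb hhb i⟩
  | coe x =>
    cases b with
    | infty =>
      have h0 := hinf hgb hhb i
      exact ⟨h0, by simpa [h0] using hfin x hga hha i⟩
    | coe y =>
      have hxy : x - y ≠ 0 := sub_ne_zero.2 fun e => hab (e ▸ rfl)
      have hx := hfin x hga hha i
      have hy := hfin y hgb hhb i
      have h0 : M i 0 = 0 :=
        (mul_eq_zero.1 (show M i 0 * (x - y) = 0 by linear_combination hx - hy)).resolve_right hxy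
      exact ⟨h0, by simpa [h0] using hx⟩

end Line

section Group

variable {p : ℕ} [Fact p.Prime]

local notation "GL2" => GL (Fin 2) (ZMod p)
local notation "M2" => Matrix (Fin 2) (Fin 2) (ZMod p)

open RTLift.Finish.Image

theorem two_ne_zero_zmod (hp2 : p ≠ 2) : (2 : ZMod p) ≠ 0 := fun h => hp2
  ((Nat.prime_dvd_prime_iff_eq Fact.out Nat.prime_two).1
    ((ZMod.natCast_eq_zero_iff 2 p).1 (by exact_mod_cast h)))

/-- A non-scalar element of order prime to `p` has two eigenvalues. -/
theorem disc_ne_zero (hp2 : p ≠ 2) {g : GL2} (hg : ∀ c : ZMod p, (g : M2) ≠ c • 1) {m : ℕ}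
    (hm : ¬ p ∣ m) (h1 : g ^ m = 1) :
    (g 0 0 - g 1 1) ^ 2 + 4 * (g 0 1 * g 1 0) ≠ 0 := by
  intro hD
  have h2 := two_ne_zero_zmod hp2
  set s := (g 0 0 + g 1 1) / 2 with hs
  set N := (g : M2) - s • 1 with hN
  have hNN : N * N = 0 := by
    ext i j
    fin_cases i <;> fin_cases j <;>
      simp [hN, hs, mul_apply, Fin.sum_univ_two, Matrix.sub_apply, Matrix.smul_apply] <;> field_simp <;>
      first
        | linear_combination hD
        | ring
  have hg' : (g : M2) = s • 1 + N := by rw [hN, add_sub_cancel]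
  have hs0 : s ≠ 0 := fun h => by
    have := congrArg Matrix.det hNN
    rw [show N = (g : M2) by rw [hg', h, zero_smul, zero_add], det_mul, det_zero] at this
    exact g.det_ne_zero (mul_self_eq_zero.1 this)
  have hpow : ∀ k : ℕ, (g : M2) ^ (k + 1) =
      s ^ (k + 1) • (1 : M2) + (((k + 1 : ℕ) : ZMod p) * s ^ k) • N := by
    intro k
    induction k with
    | zero => rw [pow_one, hg']; simp
    | succ k ih =>
      rw [pow_succ _ (k + 1), ih, hg', add_mul, mul_add, mul_add, smul_mul_smul_comm,
        smul_mul_smul_comm, smul_mul_assoc, smul_mul_assoc, hNN, smul_zero, one_mul, one_mul,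
        mul_one]
      push_cast
      module
  obtain ⟨k, rfl⟩ : ∃ k, m = k + 1 := Nat.exists_eq_succ_of_ne_zero fun h => hm (h ▸ dvd_zero p)
  have hk := hpow k
  rw [← Units.val_pow_eq_pow_val, h1, Units.val_one] at hk
  have hNz : (1 - s ^ (k + 1)) • N = 0 := by
    have := congrArg (· * N) hk
    simp only [one_mul, add_mul, smul_mul_assoc, hNN, smul_zero, add_zero] at this
    rw [sub_smul, one_smul, ← this, sub_self]
  have hN0 : N = 0 := by
    rcases smul_eq_zero.1 hNz with h | h
    · rw [← sub_eq_zero.1 h, one_smul, left_eq_add, smul_eq_zero] at hk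
      exact hk.resolve_left (mul_ne_zero (fun e => hm ((ZMod.natCast_eq_zero_iff _ _).1 e))
        (pow_ne_zero _ hs0))
    · exact h
  exact hg s (sub_eq_zero.1 hN0)

variable {G : Subgroup (GL (Fin 2) (ZMod p))}

/-- The group-theoretic end of the argument. -/
theorem false_of_large_element (hp2 : p ≠ 2) (h : Hypotheses G)
    (hab : ∀ g : G, detG G g = 1 → g ∈ commutator G) (hG : ¬ p ∣ Nat.card G) (t : G)
    (hgen : ∀ u : (ZMod p)ˣ, u ∈ Subgroup.zpowers (detG G t))
    (hbig : ∀ j : ℕ, 0 < j → j ≤ 5 → ∀ c : ZMod p, ((t : GL2) : M2) ^ j ≠ c • 1) : False := by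
  classical
  set K := AlgebraicClosure (ZMod p)
  set f := algebraMap (ZMod p) K with hf
  have hfi : Function.Injective f := f.injective
  set ι : G →* GL (Fin 2) K := (GeneralLinearGroup.map f).comp G.subtype with hι
  have hentry : ∀ (g : G) (i j : Fin 2), ι g i j = f (((g : GL2) : M2) i j) := fun g i j => rfl
  set φ : G →* Equiv.Perm (OnePoint K) := (MulAction.toPermHom (GL (Fin 2) K) _).comp ι with hφ
  have hφa : ∀ g x, φ g x = ι g • x := fun g x => rfl
  have hker : ∀ g : G, φ g = 1 → ∃ c : ZMod p, ((g : GL2) : M2) = c • 1 := by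
    intro g hg
    have hfix : ∀ x, ι g • x = x := fun x => by rw [← hφa, hg]; rfl
    have hi := smul_infty_eq_self_iff.1 (hfix ∞)
    have h0 := (smul_some_eq_self_iff (ι g) 0).1 (hfix _)
    have h1 := (smul_some_eq_self_iff (ι g) 1).1 (hfix _)
    refine ⟨((g : GL2) : M2) 0 0, Matrix.ext fun i j => hfi ?_⟩
    fin_cases i <;> fin_cases j <;>
      simp only [Fin.zero_eta, Fin.mk_one, ← hentry, Matrix.smul_apply, one_apply_eq, smul_eq_mul,
        mul_one, one_apply_ne (show (0 : Fin 2) ≠ 1 by decide),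
        one_apply_ne (show (1 : Fin 2) ≠ 0 by decide), mul_zero, map_zero]
    · linear_combination -h0
    · exact hi
    · linear_combination h1 - hi - h0
  have h2K : (2 : K) ≠ 0 := by
    rw [← map_ofNat f 2]; exact (_root_.map_ne_zero f).2 (two_ne_zero_zmod hp2)
  have two : ∀ σ : φ.range, σ ≠ 1 →
      ∃ a b : OnePoint K, a ≠ b ∧ ∀ x, σ • x = x ↔ x = a ∨ x = b := by
    rintro ⟨_, g, rfl⟩ hσ
    have hns : ∀ c : ZMod p, ((g : GL2) : M2) ≠ c • 1 := fun c hc => hσ (Subtype.ext
      (Equiv.ext fun x => by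
        show φ g x = x
        rw [hφa]
        have e : ∀ i j, ι g i j = f ((c • (1 : M2)) i j) := fun i j => by rw [hentry, hc]
        cases x with
        | infty => rw [smul_infty_eq_self_iff, e]; simp
        | coe x => rw [smul_some_eq_self_iff, e, e, e, e]; simp))
    have hD := disc_ne_zero hp2 hns hG (by
      rw [← SubgroupClass.coe_pow, pow_card_eq_one', OneMemClass.coe_one])
    exact exists_two_fixed h2K (ι g) (by
      simp only [hentry]
      rw [← map_ofNat f 4, ← map_sub, ← map_pow, ← map_mul, ← map_mul, ← map_add]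
      exact (_root_.map_ne_zero f).2 hD)
  set τ : φ.range := ⟨φ t, t, rfl⟩ with hτ
  have hτ6 : 6 ≤ orderOf τ := by
    by_contra! hlt
    obtain ⟨c, hc⟩ := hker (t ^ orderOf τ) (by
      rw [map_pow]
      exact congrArg Subtype.val (pow_orderOf_eq_one τ))
    exact hbig _ (orderOf_pos τ) (by omega) c (by
      rwa [SubgroupClass.coe_pow, Units.val_pow_eq_pow_val] at hc)
  obtain ⟨a, b, hne, hfixτ⟩ := two τ fun e => by rw [e, orderOf_one] at hτ6; omega
  have hτab : ∀ x, τ • x = x ↔ x = a ∨ x = b := hfixτ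
  -- the pair is invariant
  have hinv : ∀ x, (x = a ∨ x = b) → ∀ g : G, φ g x = a ∨ φ g x = b := by
    intro x hx g
    have hfx : τ • x = x := (hτab x).2 hx
    have h6 : 6 ≤ Nat.card (MulAction.stabilizer φ.range x) :=
      hτ6.trans ((Nat.card_zpowers τ).symm.le.trans (Subgroup.card_le_of_le
        (Subgroup.zpowers_le.2 hfx)))
    have horb := ncard_orbit_le_two two h6
    refine (hτab (φ g x)).1 ?_
    by_contra hmove
    have h1 : φ g x ≠ x := fun e => hmove (by rw [e, hfx])
    have h2 : τ • φ g x ≠ x := fun e => h1 (MulAction.injective τ (e.trans hfx.symm))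
    have h3 : ({x, φ g x, τ • φ g x} : Set (OnePoint K)).ncard = 3 :=
      Set.ncard_eq_three.2 ⟨_, _, _, Ne.symm h1, Ne.symm h2, Ne.symm hmove, rfl⟩
    have h4 : ({x, φ g x, τ • φ g x} : Set (OnePoint K)) ⊆ MulAction.orbit φ.range x := by
      have hg : φ g x ∈ MulAction.orbit φ.range x := ⟨⟨φ g, g, rfl⟩, rfl⟩
      intro y hy
      rcases hy with rfl | rfl | rfl
      · exact MulAction.mem_orbit_self _
      · exact hg
      · exact MulAction.mem_orbit_of_mem_orbit τ hg
    have := Set.ncard_le_ncard h4 (Set.finite_range fun h : φ.range => h • x)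
    omega
  let χ : G →* ℤˣ :=
    { toFun := fun g => if φ g a = a then 1 else -1
      map_one' := by simp
      map_mul' := fun g g' => by
        rw [map_mul, Equiv.Perm.mul_apply]
        rcases hinv a (Or.inl rfl) g' with h' | h' <;> rcases hinv a (Or.inl rfl) g with hg | hg <;>
          rw [h']
        · simp [hg]
        · simp [hg, hne.symm]
        · have hgb : φ g b = b := (hinv b (Or.inr rfl) g).resolve_left fun e =>
            hne ((φ g).injective (hg.trans e.symm))
          simp [hg, hgb, hne.symm]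
        · have hgb : φ g b = a := (hinv b (Or.inr rfl) g).resolve_right fun e =>
            hne ((φ g).injective (hg.trans e.symm))
          simp [hg, hgb, hne.symm] }
  have hχt : χ t = 1 := if_pos ((hτab a).2 (Or.inl rfl))
  have hall : ∀ g : G, φ g a = a ∧ φ g b = b := by
    intro g
    obtain ⟨k, hk⟩ := Subgroup.mem_zpowers_iff.1 (hgen (detG G g))
    have h1 : χ ((t ^ k)⁻¹ * g) = 1 := Abelianization.commutator_subset_ker χ
      (hab _ (by rw [map_mul, map_inv, map_zpow, hk, inv_mul_cancel]))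
    rw [map_mul, map_inv, map_zpow, hχt, _root_.one_zpow, inv_one, one_mul] at h1
    have ha : φ g a = a := by
      by_contra hga
      change (if φ g a = a then (1 : ℤˣ) else -1) = 1 at h1
      rw [if_neg hga] at h1
      exact absurd h1 (by decide)
    exact ⟨ha, (hinv b (Or.inr rfl) g).resolve_left fun e =>
      hne ((φ g).injective (ha.trans e.symm))⟩
  refine not_commutative hp2 h fun g g' => Subtype.ext (Units.ext ?_)
  have hcomm := mul_comm_of_two_fixed hne (hall g).1 (hall g).2 (hall g').1 (hall g').2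
  refine Matrix.map_injective hfi (?_ : (f.mapMatrix) _ = (f.mapMatrix) _)
  rw [Subgroup.coe_mul, Subgroup.coe_mul, Units.val_mul, Units.val_mul, map_mul, map_mul]
  exact hcomm

end Group

end FermatAgent.Wiring.General
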